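import Mathlib

set_option autoImplicit false

open scoped Pointwise
open IsLocalRing RingTheory.Sequence

namespace Fermat.Agent.S57

set_option linter.unusedSectionVars false

variable {R : Type*} [CommRing R] [IsNoetherianRing R] [IsLocalRing R]

/-- Going up for associated primes along a regular element. -/
theorem exists_isAssociatedPrime_quotSMulTop {N : Type*} [AddCommGroup N] [Module R N]
    [Module.Finite R N] {x : R} (hx : x ∈ maximalIdeal R) (reg : IsSMulRegular N x)
    {p : Ideal R} (hp : IsAssociatedPrime p N) :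
    ∃ p' : Ideal R, IsAssociatedPrime p' (QuotSMulTop x N) ∧ p ≤ p' ∧ x ∈ p' := by
  obtain ⟨hprime, n0, hn0⟩ := isAssociatedPrime_iff.mp hp
  have hmem : ∀ a : R, a ∈ p ↔ a • n0 = 0 := by
    intro a
    rw [hn0, Submodule.mem_colon_singleton, Submodule.mem_bot]
  have hn0ne : n0 ≠ 0 := by
    intro h
    apply hprime.ne_top
    rw [Ideal.eq_top_iff_one, hmem, h, smul_zero]
  -- the p-torsion submodule
  let T : Submodule R N := Submodule.torsionBySet R N (p : Set R)
  have hn0T : n0 ∈ T := by
    rw [Submodule.mem_torsionBySet_iff]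
    rintro ⟨a, ha⟩
    exact (hmem a).mp ha
  have hTne : T ≠ ⊥ := fun h => hn0ne (by simpa [h] using hn0T)
  have hTfg : T.FG := by
    have : IsNoetherian R N := isNoetherian_of_isNoetherianRing_of_finite R N
    exact IsNoetherian.noetherian T
  have hlejac : Ideal.span {x} ≤ (⊥ : Ideal R).jacobson := by
    rw [Ideal.span_singleton_le_iff_mem]
    exact IsLocalRing.maximalIdeal_le_jacobson _ hx
  obtain ⟨t, htT, htnot⟩ : ∃ t ∈ T, t ∉ Ideal.span {x} • T := by
    by_contra hcon
    push Not at hcon
    exact hTne (Submodule.eq_bot_of_le_smul_of_le_jacobson_bot _ _ hTfg hcon hlejac)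
  have htN : t ∉ x • (⊤ : Submodule R N) := by
    intro ht
    obtain ⟨n', -, rfl⟩ := (Submodule.mem_smul_pointwise_iff_exists _ _ _).mp ht
    apply htnot
    have hn'T : n' ∈ T := by
      rw [Submodule.mem_torsionBySet_iff]
      rintro ⟨a, ha⟩
      have h1 : a • (x • n') = 0 := ((Submodule.mem_torsionBySet_iff _ _).mp htT) ⟨a, ha⟩
      rw [smul_comm] at h1
      exact reg.right_eq_zero_of_smul h1
    exact Submodule.smul_mem_smul (Ideal.mem_span_singleton_self x) hn'T
  have htbar : (Submodule.Quotient.mk t : QuotSMulTop x N) ≠ 0 := by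
    rwa [Ne, Submodule.Quotient.mk_eq_zero]
  obtain ⟨P, hP, hle⟩ := exists_le_isAssociatedPrime_of_isNoetherianRing R
    (Submodule.Quotient.mk t : QuotSMulTop x N) htbar
  refine ⟨P, hP, ?_, ?_⟩
  · intro a ha
    apply hle
    rw [Submodule.mem_colon_singleton, Submodule.mem_bot, ← Submodule.Quotient.mk_smul]
    have h1 : a • t = 0 := ((Submodule.mem_torsionBySet_iff _ _).mp htT) ⟨a, ha⟩
    rw [h1, Submodule.Quotient.mk_zero]
  · apply hle
    rw [Submodule.mem_colon_singleton, Submodule.mem_bot, ← Submodule.Quotient.mk_smul,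
      Submodule.Quotient.mk_eq_zero]
    exact Submodule.smul_mem_pointwise_smul t x ⊤ trivial

theorem not_mem_of_isAssociatedPrime_of_isSMulRegular {N : Type*} [AddCommGroup N] [Module R N]
    {x : R} (reg : IsSMulRegular N x) {p : Ideal R} (hp : IsAssociatedPrime p N) : x ∉ p := by
  obtain ⟨hprime, n0, hn0⟩ := isAssociatedPrime_iff.mp hp
  intro hxp
  rw [hn0, Submodule.mem_colon_singleton, Submodule.mem_bot] at hxp
  have h0 : n0 = 0 := reg.right_eq_zero_of_smul hxp
  apply hprime.ne_top
  rw [Ideal.eq_top_iff_one, hn0, Submodule.mem_colon_singleton, Submodule.mem_bot, h0, smul_zero]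

theorem mem_maximalIdeal_of_isRegular_cons {N : Type*} [AddCommGroup N] [Module R N]
    {x : R} {rs : List R} (reg : IsRegular N (x :: rs)) : x ∈ maximalIdeal R := by
  rw [mem_maximalIdeal, mem_nonunits_iff]
  intro isu
  apply reg.2
  have h1 : Ideal.ofList (x :: rs) = ⊤ := by
    rw [Ideal.eq_top_iff_one]
    obtain ⟨u, hu⟩ := isu
    have : (↑u⁻¹ : R) * x ∈ Ideal.ofList (x :: rs) :=
      Ideal.mul_mem_left _ _ (Ideal.subset_span (by simp))
    have h2 : (↑u⁻¹ : R) * x = 1 := by rw [← hu, Units.inv_mul]
    rwa [h2] at this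
  rw [h1, Submodule.top_smul]

/-- Chain lemma: the length of a regular sequence is bounded by `dim R/p` for every
associated prime `p`. -/
theorem length_le_ringKrullDim_quotient_of_isAssociatedPrime {N : Type*} [AddCommGroup N]
    [Module R N] [Module.Finite R N] (rs : List R) (reg : IsRegular N rs)
    {p : Ideal R} (hp : IsAssociatedPrime p N) :
    (rs.length : WithBot ℕ∞) ≤ ringKrullDim (R ⧸ p) := by
  induction rs generalizing N p with
  | nil =>
    have := hp.isPrime
    simpa using ringKrullDim_nonneg_of_nontrivial (R := R ⧸ p)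
  | cons x rs' ih =>
    have hx : x ∈ maximalIdeal R := mem_maximalIdeal_of_isRegular_cons reg
    obtain ⟨hreg, hreg'⟩ := (isRegular_cons_iff N x rs').mp reg
    obtain ⟨p', hp', hle, hxp'⟩ := exists_isAssociatedPrime_quotSMulTop hx hreg hp
    have hxp : x ∉ p := not_mem_of_isAssociatedPrime_of_isSMulRegular hreg hp
    have hprime := hp.isPrime
    have hprime' := hp'.isPrime
    have h1 := ih hreg' hp'
    have hne : (Ideal.Quotient.mk p x) ≠ 0 := by
      rwa [Ne, Ideal.Quotient.eq_zero_iff_mem]
    have h2 : ringKrullDim (R ⧸ p') + 1 ≤ ringKrullDim (R ⧸ p) :=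
      ringKrullDim_succ_le_of_surjective (Ideal.Quotient.factor hle)
        (Ideal.Quotient.factor_surjective hle) (mem_nonZeroDivisors_of_ne_zero hne)
        (by rw [Ideal.Quotient.factor_mk, Ideal.Quotient.eq_zero_iff_mem]; exact hxp')
    calc ((x :: rs').length : WithBot ℕ∞) = (rs'.length : WithBot ℕ∞) + 1 := by
          rw [List.length_cons]; push_cast; rfl
      _ ≤ ringKrullDim (R ⧸ p') + 1 := by gcongr
      _ ≤ ringKrullDim (R ⧸ p) := h2

theorem spanFinrank_ofList_le (xs : List R) : (Ideal.ofList xs).spanFinrank ≤ xs.length := by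
  classical
  have hfin : {r | r ∈ xs}.Finite := List.finite_toSet xs
  refine le_trans (Submodule.spanFinrank_span_le_ncard_of_finite hfin) ?_
  have h1 : {r | r ∈ xs} = (xs.toFinset : Set R) := by ext; simp
  rw [h1, Set.ncard_coe_finset]
  exact List.toFinset_card_le xs

/-- If the maximal ideal is generated by `x :: xs`, and `N` has a regular sequence longer
than `xs`, then `x` is `N`-regular. -/
theorem isSMulRegular_head_of_ofList_eq_maximalIdeal {N : Type*} [AddCommGroup N]
    [Module R N] [Module.Finite R N] (x : R) (xs rs : List R)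
    (hspan : Ideal.ofList (x :: xs) = maximalIdeal R) (hlen : xs.length < rs.length)
    (reg : IsRegular N rs) : IsSMulRegular N x := by
  rw [isSMulRegular_iff_right_eq_zero_of_smul]
  intro n hn
  by_contra hne
  obtain ⟨P, hP, hle⟩ := exists_le_isAssociatedPrime_of_isNoetherianRing R n hne
  have hxP : x ∈ P := hle (by rw [Submodule.mem_colon_singleton, Submodule.mem_bot]; exact hn)
  have hprime := hP.isPrime
  have h1 := length_le_ringKrullDim_quotient_of_isAssociatedPrime rs reg hP
  have hloc : IsLocalRing (R ⧸ P) :=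
    IsLocalRing.of_surjective' (Ideal.Quotient.mk P) Ideal.Quotient.mk_surjective
  have hmax : maximalIdeal (R ⧸ P) = Ideal.ofList (xs.map (Ideal.Quotient.mk P)) := by
    rw [← IsLocalRing.map_maximalIdeal_of_surjective (Ideal.Quotient.mk P)
      Ideal.Quotient.mk_surjective, ← hspan, Ideal.map_ofList, List.map_cons,
      Ideal.ofList_cons, Ideal.Quotient.eq_zero_iff_mem.mpr hxP]
    simp
  have h2 : ringKrullDim (R ⧸ P) ≤ (xs.length : WithBot ℕ∞) := by
    refine le_trans (ringKrullDim_le_spanFinrank_maximalIdeal (R ⧸ P)) ?_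
    rw [hmax]
    have := spanFinrank_ofList_le (xs.map (Ideal.Quotient.mk P))
    rw [List.length_map] at this
    exact_mod_cast this
  have h3 : (rs.length : WithBot ℕ∞) ≤ (xs.length : WithBot ℕ∞) := h1.trans h2
  have h4 : rs.length ≤ xs.length := by exact_mod_cast h3
  omega

end Fermat.Agent.S57
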