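import Mathlib
import Fermat.Agent.S57.AssPrime

set_option autoImplicit false

open scoped Pointwise
open IsLocalRing RingTheory.Sequence CategoryTheory Abelian

namespace Fermat.Agent.S57

set_option linter.unusedSectionVars false

variable {R : Type} [CommRing R] [IsNoetherianRing R] [IsLocalRing R]

theorem mem_maximalIdeal_of_mem_of_isRegular {N : Type*} [AddCommGroup N] [Module R N]
    {rs : List R} (reg : IsRegular N rs) : ∀ r ∈ rs, r ∈ maximalIdeal R := by
  intro r hr
  rw [mem_maximalIdeal, mem_nonunits_iff]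
  intro isu
  apply reg.2
  have h1 : Ideal.ofList rs = ⊤ := by
    rw [Ideal.eq_top_iff_one]
    obtain ⟨u, hu⟩ := isu
    have : (↑u⁻¹ : R) * r ∈ Ideal.ofList rs :=
      Ideal.mul_mem_left _ _ (Ideal.subset_span hr)
    have h2 : (↑u⁻¹ : R) * r = 1 := by rw [← hu, Units.inv_mul]
    rwa [h2] at this
  rw [h1, Submodule.top_smul]

theorem maximalIdeal_smul_top_lt_top (N : Type*) [AddCommGroup N] [Module R N]
    [Module.Finite R N] [Nontrivial N] :
    maximalIdeal R • (⊤ : Submodule R N) < ⊤ :=
  lt_top_iff_ne_top.mpr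
    (Submodule.top_ne_ideal_smul_of_le_jacobson_annihilator (maximalIdeal_le_jacobson _)).symm

/-- Depth drops by (at most) one modulo a regular element (via the Rees theorem). -/
theorem exists_isRegular_quotSMulTop {N : Type} [AddCommGroup N] [Module R N]
    [Module.Finite R N] {x : R} (hx : x ∈ maximalIdeal R) (hreg : IsSMulRegular N x)
    (rs : List R) (n : ℕ) (hlen : rs.length = n + 1) (reg : IsRegular N rs) :
    ∃ rs' : List R, rs'.length = n ∧ IsRegular (QuotSMulTop x N) rs' := by
  have hnt : Nontrivial N := reg.nontrivial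
  have hnt' : Nontrivial (QuotSMulTop x N) := nontrivial_quotSMulTop_of_mem_maximalIdeal N hx
  have mem := mem_maximalIdeal_of_mem_of_isRegular reg
  have tfae1 := ModuleCat.exists_isRegular_tfae (maximalIdeal R) (n + 1) (ModuleCat.of R N)
    (maximalIdeal_smul_top_lt_top N)
  have h31 := tfae1.out 3 1
  have h2 := h31.mp ⟨rs, hlen, mem, reg⟩
  have tfae2 := ModuleCat.exists_isRegular_tfae (maximalIdeal R) n
    (ModuleCat.of R (QuotSMulTop x N)) (maximalIdeal_smul_top_lt_top (QuotSMulTop x N))
  have hreg' : IsSMulRegular (ModuleCat.of R N) x := hreg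
  have h_ext' : ∀ i < n, Subsingleton (Ext (ModuleCat.of R (Shrink.{0} (R ⧸ maximalIdeal R)))
      (ModuleCat.of R (QuotSMulTop x N)) i) := by
    intro i hi
    have zero1 := AddCommGrpCat.isZero_of_iff_subsingleton.mpr (h2 i (by omega))
    have zero2 := AddCommGrpCat.isZero_of_iff_subsingleton.mpr (h2 (i + 1) (by omega))
    exact AddCommGrpCat.subsingleton_of_isZero <| ShortComplex.Exact.isZero_of_both_zeros
      ((Ext.covariant_sequence_exact₃' _ hreg'.smulShortComplex_shortExact) i (i + 1) rfl)
      (zero1.eq_zero_of_src _) (zero2.eq_zero_of_tgt _)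
  have h13 := tfae2.out 1 3
  obtain ⟨rs', hlen', -, reg'⟩ := h13.mp h_ext'
  exact ⟨rs', hlen', reg'⟩

end Fermat.Agent.S57
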