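import Mathlib
import Fermat.Agent.S57.Depth

set_option autoImplicit false

open scoped Pointwise
open IsLocalRing RingTheory.Sequence

namespace Fermat.Agent.S57

/-- A finitely generated module over a Noetherian local ring whose maximal ideal is generated
by `n` elements, admitting a regular sequence of length `n`, is free. -/
theorem free_of_isRegular_of_ofList_eq_maximalIdeal : ∀ (n : ℕ) (R : Type) [CommRing R]
    [IsNoetherianRing R] [IsLocalRing R] (N : Type) [AddCommGroup N] [Module R N]
    [Module.Finite R N] (xs rs : List R), xs.length = n → Ideal.ofList xs = maximalIdeal R →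
    rs.length = n → IsRegular N rs → Module.Free R N := by
  intro n
  induction n with
  | zero =>
    intro R _ _ _ N _ _ _ xs rs hxs hspan _ _
    have hnil : xs = [] := List.length_eq_zero_iff.mp hxs
    rw [hnil, Ideal.ofList_nil] at hspan
    have hfield : IsField R := IsLocalRing.isField_iff_maximalIdeal_eq.mpr hspan.symm
    let _ := hfield.toField
    exact Module.Free.of_divisionRing R N
  | succ n ih =>
    intro R _ _ _ N _ _ _ xs rs hxs hspan hlen reg
    match xs, hxs with
    | x :: xs', hxs =>
      have hxs' : xs'.length = n := by simpa using hxs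
      have hreg : IsSMulRegular N x :=
        isSMulRegular_head_of_ofList_eq_maximalIdeal x xs' rs hspan (by omega) reg
      have hx : x ∈ maximalIdeal R := by
        rw [← hspan]; exact Ideal.subset_span (by simp)
      obtain ⟨rs', hlen', reg'⟩ := exists_isRegular_quotSMulTop hx hreg rs n hlen reg
      have hne : Ideal.span {x} ≠ ⊤ := by
        intro h
        rw [Ideal.span_singleton_eq_top] at h
        exact hx h
      have hnt : Nontrivial (R ⧸ Ideal.span {x}) := Ideal.Quotient.nontrivial_iff.mpr hne
      have hloc : IsLocalRing (R ⧸ Ideal.span {x}) :=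
        IsLocalRing.of_surjective' (Ideal.Quotient.mk _) Ideal.Quotient.mk_surjective
      have hfin : Module.Finite (R ⧸ Ideal.span {x}) (QuotSMulTop x N) :=
        Module.Finite.of_restrictScalars_finite R (R ⧸ Ideal.span {x}) (QuotSMulTop x N)
      have hmax : Ideal.ofList (xs'.map (Ideal.Quotient.mk (Ideal.span {x}))) =
          maximalIdeal (R ⧸ Ideal.span {x}) := by
        rw [← IsLocalRing.map_maximalIdeal_of_surjective (Ideal.Quotient.mk (Ideal.span {x}))
          Ideal.Quotient.mk_surjective, ← hspan, Ideal.map_ofList, List.map_cons,
          Ideal.ofList_cons,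
          Ideal.Quotient.eq_zero_iff_mem.mpr (Ideal.mem_span_singleton_self x)]
        simp
      have reg'' : IsRegular (QuotSMulTop x N)
          (rs'.map (Ideal.Quotient.mk (Ideal.span {x}))) :=
        ((isRegular_cons_iff' N x rs').mp ((isRegular_cons_iff N x rs').mpr ⟨hreg, reg'⟩)).2
      have hfree : Module.Free (R ⧸ Ideal.span {x}) (QuotSMulTop x N) :=
        ih (R ⧸ Ideal.span {x}) (QuotSMulTop x N) (xs'.map (Ideal.Quotient.mk (Ideal.span {x})))
          (rs'.map (Ideal.Quotient.mk (Ideal.span {x}))) (by simpa using hxs') hmax
          (by simpa using hlen') reg''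
      have hjac : x ∈ (⊥ : Ideal R).jacobson := IsLocalRing.maximalIdeal_le_jacobson _ hx
      have hfp : Module.FinitePresentation R N := Module.finitePresentation_of_finite R N
      exact (Module.free_quotSMulTop_iff_free R N hjac hreg).mp hfree

end Fermat.Agent.S57
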