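import Mathlib

set_option autoImplicit false

open scoped Pointwise
open IsLocalRing RingTheory.Sequence

namespace Fermat.Agent.S57

section General

variable {A B : Type*} [CommRing A] [CommRing B]

/-- If `f : B → A` is a ring hom with a section `s`, with kernel generated by a regular element
`x`, then weakly regular sequences on `A` lift to weakly regular sequences on `B`. -/
theorem isWeaklyRegular_cons_map_of_section (f : B →+* A) (s : A →+* B)
    (hfs : ∀ a, f (s a) = a) (x : B) (hx : IsSMulRegular B x)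
    (hker : ∀ b, f b = 0 → ∃ c, b = x * c) (hfx : f x = 0)
    (as : List A) (h : IsWeaklyRegular A as) : IsWeaklyRegular B (x :: as.map s) := by
  rw [isWeaklyRegular_cons_iff]
  refine ⟨hx, ?_⟩
  let g : B →ₛₗ[f] A :=
    { toFun := f
      map_add' := map_add f
      map_smul' := fun p q => by simp }
  have hle : x • (⊤ : Submodule B B) ≤ LinearMap.ker g := by
    intro b hb
    obtain ⟨c, -, rfl⟩ := (Submodule.mem_smul_pointwise_iff_exists _ _ _).mp hb
    simp [g, hfx]
  let g' := Submodule.liftQ _ g hle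
  have hinj : Function.Injective g' := by
    rw [← LinearMap.ker_eq_bot]
    apply Submodule.ker_liftQ_eq_bot
    intro b hb
    obtain ⟨c, rfl⟩ := hker b hb
    exact Submodule.smul_mem_pointwise_smul c x ⊤ trivial
  have hsurj : Function.Surjective g' := fun a =>
    ⟨Submodule.Quotient.mk (s a), by
      change (Submodule.liftQ _ g hle) (Submodule.Quotient.mk (s a)) = a
      rw [Submodule.liftQ_apply]
      exact hfs a⟩
  let e : QuotSMulTop x B ≃+ A := AddEquiv.ofBijective g'.toAddMonoidHom ⟨hinj, hsurj⟩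
  refine (AddEquiv.isWeaklyRegular_congr (e := e) ?_).mpr h
  rw [List.forall₂_map_left_iff]
  apply List.forall₂_same.mpr
  intro a _ q
  change g' (s a • q) = a • g' q
  rw [g'.map_smulₛₗ, hfs]

theorem ofList_cons_map_eq_maximalIdeal_of_section [IsLocalRing A] [IsLocalRing B]
    (f : B →+* A) (s : A →+* B)
    (hfs : ∀ a, f (s a) = a) (x : B)
    (hker : ∀ b, f b = 0 → ∃ c, b = x * c) (hfx : f x = 0)
    (as : List A) (h : Ideal.ofList as = maximalIdeal A) :
    Ideal.ofList (x :: as.map s) = maximalIdeal B := by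
  have hsurj : Function.Surjective f := fun a => ⟨s a, hfs a⟩
  have := IsLocalHom.of_surjective f hsurj
  rw [← maximalIdeal_comap f, ← h]
  have h1 : Ideal.ofList as = Ideal.map f (Ideal.ofList (as.map s)) := by
    rw [Ideal.map_ofList, List.map_map]
    congr 1
    conv_lhs => rw [← List.map_id as]
    apply List.map_congr_left
    intro a _
    simp [hfs]
  have h2 : Ideal.comap f ⊥ = Ideal.span {x} := by
    apply le_antisymm
    · intro b hb
      rw [Ideal.mem_comap, Ideal.mem_bot] at hb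
      obtain ⟨c, rfl⟩ := hker b hb
      exact Ideal.mul_mem_right _ _ (Ideal.mem_span_singleton_self x)
    · rw [Ideal.span_singleton_le_iff_mem, Ideal.mem_comap, hfx]
      exact Ideal.zero_mem _
  rw [h1, Ideal.comap_map_of_surjective f hsurj, h2, Ideal.ofList_cons, sup_comm]

end General

section Std

open MvPowerSeries

variable {𝒪 : Type} [CommRing 𝒪]

/-- The standard list of generators `X_0, ..., X_{r-1}, ϖ` of the maximal ideal of `𝒪⟦X⟧`. -/
noncomputable def stdList (r : ℕ) (ϖ : 𝒪) : List (MvPowerSeries (Fin r) 𝒪) :=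
  List.ofFn (fun i : Fin r => (X i : MvPowerSeries (Fin r) 𝒪)) ++ [C ϖ]

theorem stdList_length (r : ℕ) (ϖ : 𝒪) : (stdList r ϖ).length = r + 1 := by
  simp [stdList]

/-- Setting the variable `X 0` to zero. -/
noncomputable def killX0 (r : ℕ) : MvPowerSeries (Fin (r + 1)) 𝒪 →+* MvPowerSeries (Fin r) 𝒪 :=
  (PowerSeries.constantCoeff).comp (finSuccEquiv 𝒪 r).toAlgHom.toRingHom

/-- The inclusion of power series in `r` variables into power series in `r + 1` variables. -/
noncomputable def inclSucc (r : ℕ) : MvPowerSeries (Fin r) 𝒪 →+* MvPowerSeries (Fin (r + 1)) 𝒪 :=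
  ((finSuccEquiv 𝒪 r).symm.toAlgHom.toRingHom).comp PowerSeries.C

theorem killX0_apply (r : ℕ) (b : MvPowerSeries (Fin (r + 1)) 𝒪) :
    killX0 r b = PowerSeries.constantCoeff (finSuccEquiv 𝒪 r b) := rfl

theorem inclSucc_apply (r : ℕ) (a : MvPowerSeries (Fin r) 𝒪) :
    inclSucc r a = (finSuccEquiv 𝒪 r).symm (PowerSeries.C a) := rfl

theorem killX0_inclSucc (r : ℕ) (a : MvPowerSeries (Fin r) 𝒪) : killX0 r (inclSucc r a) = a := by
  rw [killX0_apply, inclSucc_apply, AlgEquiv.apply_symm_apply, PowerSeries.constantCoeff_C]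

theorem inclSucc_X (r : ℕ) (i : Fin r) :
    inclSucc r (X i : MvPowerSeries (Fin r) 𝒪) = X i.succ := by
  rw [inclSucc_apply, ← finSuccEquiv_X_succ, AlgEquiv.symm_apply_apply]

theorem inclSucc_C (r : ℕ) (a : 𝒪) :
    inclSucc r (C a : MvPowerSeries (Fin r) 𝒪) = C a := by
  rw [inclSucc_apply, ← finSuccEquiv_C, AlgEquiv.symm_apply_apply]

theorem killX0_X0 (r : ℕ) : killX0 r (X 0 : MvPowerSeries (Fin (r + 1)) 𝒪) = 0 := by
  rw [killX0_apply, finSuccEquiv_X_zero, PowerSeries.constantCoeff_X]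

theorem exists_eq_X0_mul_of_killX0_eq_zero (r : ℕ) (b : MvPowerSeries (Fin (r + 1)) 𝒪)
    (hb : killX0 r b = 0) : ∃ c, b = X 0 * c := by
  rw [killX0_apply, ← PowerSeries.X_dvd_iff] at hb
  obtain ⟨q, hq⟩ := hb
  refine ⟨(finSuccEquiv 𝒪 r).symm q, ?_⟩
  apply (finSuccEquiv 𝒪 r).injective
  rw [map_mul, finSuccEquiv_X_zero, AlgEquiv.apply_symm_apply]
  exact hq

theorem stdList_succ (r : ℕ) (ϖ : 𝒪) :
    stdList (r + 1) ϖ = X 0 :: (stdList r ϖ).map (inclSucc r) := by
  simp only [stdList, List.ofFn_succ, List.map_append, List.map_ofFn, List.cons_append,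
    List.map_cons, List.map_nil, inclSucc_C]
  congr 3
  funext i
  simp [inclSucc_X]

theorem isSMulRegular_of_ne_zero {B : Type*} [CommRing B] [NoZeroDivisors B] {x : B}
    (hx : x ≠ 0) : IsSMulRegular B x :=
  isSMulRegular_iff_right_eq_zero_of_smul.mpr fun _ hm => (mul_eq_zero.mp hm).resolve_left hx

variable [IsDomain 𝒪] [IsDiscreteValuationRing 𝒪]

theorem stdList_spec (ϖ : 𝒪) (hϖ : Irreducible ϖ) (r : ℕ) :
    IsWeaklyRegular (MvPowerSeries (Fin r) 𝒪) (stdList r ϖ) ∧
      Ideal.ofList (stdList r ϖ) = maximalIdeal (MvPowerSeries (Fin r) 𝒪) := by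
  induction r with
  | zero =>
    have h0 : stdList 0 ϖ = [C ϖ] := by simp [stdList]
    rw [h0]
    constructor
    · rw [isWeaklyRegular_singleton_iff]
      apply isSMulRegular_of_ne_zero
      rw [Ne, map_eq_zero_iff C (C_injective (σ := Fin 0) (R := 𝒪))]
      exact hϖ.ne_zero
    · have hsurj : Function.Surjective
          ((isEmptyEquiv (Fin 0) 𝒪).symm.toAlgHom.toRingHom) :=
        (isEmptyEquiv (Fin 0) 𝒪).symm.surjective
      rw [← map_maximalIdeal_of_surjective _ hsurj,
        hϖ.maximalIdeal_eq, ← Ideal.ofList_singleton, Ideal.map_ofList]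
      rfl
  | succ r ih =>
    obtain ⟨ih1, ih2⟩ := ih
    rw [stdList_succ]
    have hX0 : (X 0 : MvPowerSeries (Fin (r + 1)) 𝒪) ≠ 0 :=
      nonZeroDivisors.ne_zero X_mem_nonzeroDivisors
    have hreg : IsSMulRegular (MvPowerSeries (Fin (r + 1)) 𝒪)
        (X 0 : MvPowerSeries (Fin (r + 1)) 𝒪) := isSMulRegular_of_ne_zero hX0
    have h1 := isWeaklyRegular_cons_map_of_section (A := MvPowerSeries (Fin r) 𝒪)
      (B := MvPowerSeries (Fin (r + 1)) 𝒪) (killX0 r) (inclSucc r) (killX0_inclSucc r) (X 0)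
      hreg (exists_eq_X0_mul_of_killX0_eq_zero r) (killX0_X0 r) (stdList r ϖ) ih1
    have h2 := ofList_cons_map_eq_maximalIdeal_of_section (A := MvPowerSeries (Fin r) 𝒪)
      (B := MvPowerSeries (Fin (r + 1)) 𝒪) (killX0 r) (inclSucc r) (killX0_inclSucc r) (X 0)
      (exists_eq_X0_mul_of_killX0_eq_zero r) (killX0_X0 r) (stdList r ϖ) ih2
    exact ⟨h1, h2⟩

end Std

end Fermat.Agent.S57
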