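import Mathlib
import Fermat.Prelude.Def_Algebra_PatchingDatum
import Fermat.Agent.S57.Free
import Fermat.Agent.S57.PowerSeries

set_option autoImplicit false

open scoped Pointwise
open IsLocalRing RingTheory.Sequence

namespace Fermat.Agent.S57

section Basis

variable {Λ N ι : Type*} [CommRing Λ] [AddCommGroup N] [Module Λ N]

theorem repr_mem_of_mem_smul_top (β : Module.Basis ι Λ N) (I : Ideal Λ) {x : N}
    (hx : x ∈ I • (⊤ : Submodule Λ N)) (j : ι) : β.repr x j ∈ I := by
  rw [← β.span_eq] at hx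
  obtain ⟨a, ha, rfl⟩ := (Submodule.mem_ideal_smul_span_iff_exists_sum I β x).mp hx
  have h : β.repr (a.sum fun i c => c • β i) = a := by
    rw [← Finsupp.linearCombination_apply]
    exact β.repr_linearCombination a
  rw [h]
  exact ha j

end Basis

section Level

variable {𝒪 : Type} [CommRing 𝒪] [IsDomain 𝒪] [IsDiscreteValuationRing 𝒪]
  {r : ℕ} {R : Type} [CommRing R] [Algebra 𝒪 R]
  {M : Type} [AddCommGroup M] [Module R M]
  (L : Algebra.PatchingLevel 𝒪 r R M ⊥)

/-- The `φ`-semilinear parametrisation of `N` by `Λ^d`. -/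
noncomputable def levelHom : (Fin L.d → MvPowerSeries (Fin r) 𝒪) →+ L.N where
  toFun c := ∑ i, L.φ (c i) • L.b i
  map_zero' := by simp
  map_add' c c' := by simp [add_smul, Finset.sum_add_distrib]

theorem levelHom_apply (c : Fin L.d → MvPowerSeries (Fin r) 𝒪) :
    levelHom L c = ∑ i, L.φ (c i) • L.b i := rfl

theorem levelHom_bijective : Function.Bijective (levelHom L) := by
  constructor
  · rw [injective_iff_map_eq_zero]
    intro c hc
    rw [levelHom_apply, L.b_rel] at hc
    funext i
    simpa using hc i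
  · intro x
    obtain ⟨c, hc⟩ := L.b_span x
    exact ⟨c, hc.symm⟩

/-- The additive equivalence `Λ^d ≃ N`. -/
noncomputable def levelEquiv : (Fin L.d → MvPowerSeries (Fin r) 𝒪) ≃+ L.N :=
  AddEquiv.ofBijective (levelHom L) (levelHom_bijective L)

theorem levelEquiv_smul (s : MvPowerSeries (Fin r) 𝒪) (c : Fin L.d → MvPowerSeries (Fin r) 𝒪) :
    levelEquiv L (s • c) = L.φ s • levelEquiv L c := by
  change levelHom L (s • c) = L.φ s • levelHom L c
  rw [levelHom_apply, levelHom_apply, Finset.smul_sum]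
  refine Finset.sum_congr rfl fun i _ => ?_
  rw [Pi.smul_apply, smul_eq_mul, map_mul, mul_smul]

theorem level_finite : Module.Finite (MvPowerSeries (Fin r) 𝒪) L.N := by
  classical
  refine ⟨⟨Finset.univ.image L.b, ?_⟩⟩
  rw [eq_top_iff]
  intro x _
  obtain ⟨c, rfl⟩ := L.b_span x
  refine Submodule.sum_mem _ fun i _ => Submodule.smul_mem _ _ (Submodule.subset_span ?_)
  simp

theorem isWeaklyRegular_pi {Λ : Type*} [CommRing Λ] (d : ℕ) (rs : List Λ)
    (h : IsWeaklyRegular Λ rs) : IsWeaklyRegular (Fin d → Λ) rs := by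
  have h1 : IsWeaklyRegular (TensorProduct Λ Λ (Fin d → Λ)) rs := h.isWeaklyRegular_rTensor
  exact ((TensorProduct.lid Λ (Fin d → Λ)).isWeaklyRegular_congr rs).mp h1

variable [Nontrivial M]

include L in
theorem level_nontrivial_ring : Nontrivial R := Module.nontrivial R M

theorem level_nontrivial : Nontrivial L.N := L.π_surjective.nontrivial

theorem level_ker_le : RingHom.ker L.ψ ≤ maximalIdeal (MvPowerSeries (Fin r) 𝒪) := by
  have := level_nontrivial_ring L
  exact IsLocalRing.le_maximalIdeal (RingHom.ker_ne_top _)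

theorem level_phi_X_mem (i : Fin r) :
    L.φ (MvPowerSeries.X i) ∈ maximalIdeal (MvPowerSeries (Fin r) 𝒪) :=
  level_ker_le L (by rw [RingHom.mem_ker]; exact L.ψ_φ_X i)

theorem level_phi_C (a : 𝒪) : L.φ (MvPowerSeries.C a) = MvPowerSeries.C a :=
  L.φ.commutes a

theorem level_free : Module.Free (MvPowerSeries (Fin r) 𝒪) L.N := by
  obtain ⟨ϖ, hϖ⟩ := IsDiscreteValuationRing.exists_irreducible 𝒪
  obtain ⟨hwr, hmax⟩ := stdList_spec ϖ hϖ r
  have hfin := level_finite L
  have hnt := level_nontrivial L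
  -- weak regularity on `N`
  have hwrN : IsWeaklyRegular L.N ((stdList r ϖ).map L.φ) := by
    refine (AddEquiv.isWeaklyRegular_congr (e := levelEquiv L) ?_).mp
      (isWeaklyRegular_pi L.d _ hwr)
    rw [List.forall₂_map_right_iff]
    exact List.forall₂_same.mpr fun s _ c => levelEquiv_smul L s c
  have hmem : ∀ s ∈ (stdList r ϖ).map L.φ, s ∈ maximalIdeal (MvPowerSeries (Fin r) 𝒪) := by
    intro s hs
    rw [List.mem_map] at hs
    obtain ⟨t, ht, rfl⟩ := hs
    simp only [stdList, List.mem_append, List.mem_ofFn, List.mem_singleton] at ht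
    rcases ht with ⟨i, rfl⟩ | rfl
    · exact level_phi_X_mem L i
    · rw [level_phi_C, ← hmax]
      exact Ideal.subset_span (by simp [stdList])
  have hreg : IsRegular L.N ((stdList r ϖ).map L.φ) :=
    IsRegular.of_isWeaklyRegular_of_mem_maximalIdeal L.N hmem hwrN
  exact free_of_isRegular_of_ofList_eq_maximalIdeal (r + 1) (MvPowerSeries (Fin r) 𝒪) L.N
    (stdList r ϖ) ((stdList r ϖ).map L.φ) (stdList_length r ϖ) hmax
    (by rw [List.length_map, stdList_length]) hreg

theorem level_span_le_ker :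
    Ideal.span (Set.range fun i : Fin r => L.φ (MvPowerSeries.X i)) ≤ RingHom.ker L.ψ := by
  rw [Ideal.span_le]
  rintro _ ⟨i, rfl⟩
  exact (RingHom.mem_ker).mpr (L.ψ_φ_X i)

theorem level_pi_sum {ι : Type*} (t : Finset ι) (f : ι → MvPowerSeries (Fin r) 𝒪) (x : ι → L.N) :
    L.π (∑ j ∈ t, f j • x j) = ∑ j ∈ t, L.ψ (f j) • L.π (x j) := by
  rw [map_sum]
  exact Finset.sum_congr rfl fun j _ => L.π_smul (f j) (x j)

theorem level_main :
    Module.Free R M ∧ Module.annihilator R M = ⊥ ∧
      RingHom.ker L.ψ = Ideal.span (Set.range fun i : Fin r => L.φ (MvPowerSeries.X i)) := by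
  classical
  have hfree := level_free L
  have hfin := level_finite L
  have hnt := level_nontrivial L
  let ι := Module.Free.ChooseBasisIndex (MvPowerSeries (Fin r) 𝒪) L.N
  let β : Module.Basis ι (MvPowerSeries (Fin r) 𝒪) L.N :=
    Module.Free.chooseBasis (MvPowerSeries (Fin r) 𝒪) L.N
  have : Fintype ι := Module.Free.ChooseBasisIndex.fintype (MvPowerSeries (Fin r) 𝒪) L.N
  set I : Ideal (MvPowerSeries (Fin r) 𝒪) :=
    Ideal.span (Set.range fun i : Fin r => L.φ (MvPowerSeries.X i)) with hI
  have hIle : I ≤ RingHom.ker L.ψ := level_span_le_ker L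
  -- the key fact
  have key : ∀ f : ι → MvPowerSeries (Fin r) 𝒪, L.π (∑ j, f j • β j) = 0 → ∀ j, f j ∈ I := by
    intro f hf j
    have h1 := (L.ker_π _).mp hf
    have h2 := repr_mem_of_mem_smul_top β I h1 j
    rw [β.repr_sum_self] at h2
    exact h2
  -- linear independence and spanning of the images of the basis
  have hli : LinearIndependent R (fun j => L.π (β j)) := by
    rw [Fintype.linearIndependent_iff]
    intro g hg j
    choose f hf using fun j => L.ψ_surjective (g j)
    have h1 : L.π (∑ j, f j • β j) = 0 := by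
      rw [level_pi_sum]
      simpa [hf] using hg
    have h2 := hIle (key f h1 j)
    rw [RingHom.mem_ker, hf] at h2
    exact h2
  have hsp : ⊤ ≤ Submodule.span R (Set.range fun j => L.π (β j)) := by
    intro m _
    obtain ⟨x, rfl⟩ := L.π_surjective m
    rw [← β.sum_repr x, level_pi_sum]
    exact Submodule.sum_mem _ fun j _ =>
      Submodule.smul_mem _ _ (Submodule.subset_span ⟨j, rfl⟩)
  have hMfree : Module.Free R M := Module.Free.of_basis (Module.Basis.mk hli hsp)
  refine ⟨hMfree, Module.annihilator_eq_bot.mpr inferInstance, le_antisymm ?_ hIle⟩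
  intro f hf
  have hne : Nonempty ι := by
    by_contra hemp
    rw [not_nonempty_iff] at hemp
    have : Subsingleton L.N := β.repr.toEquiv.subsingleton
    exact not_subsingleton L.N this
  obtain ⟨j₀⟩ := hne
  have h1 : L.π (∑ j, (Pi.single j₀ f : ι → MvPowerSeries (Fin r) 𝒪) j • β j) = 0 := by
    rw [level_pi_sum]
    apply Finset.sum_eq_zero
    intro j _
    by_cases hj : j = j₀
    · subst hj
      rw [Pi.single_eq_same, RingHom.mem_ker.mp hf, zero_smul]
    · rw [Pi.single_eq_of_ne hj, map_zero, zero_smul]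
  have h2 := key _ h1 j₀
  rwa [Pi.single_eq_same] at h2

end Level

end Fermat.Agent.S57
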